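import Fermat.Agent.ES.Mid.Glue
import Fermat.Agent.ES.Coh.Assemble

/-!
# BR / Top : definitions for the top layer of S34 / S35 (architect: helper16)

`r ‖ N`.  `W = [[r x, 1], [N z, r]]`, `r x - (N / r) z = 1`, is an Atkin-Lehner matrix;
`c γ = W γ W⁻¹` the induced automorphism of `Γ₀(N)`; `wChar c χ = χ ∘ c`.
`Woo N A m χ` : the Kummer class attached to `χ` has a representative `≡ 1` modulo `𝔪_A`
(for the `q`-Gauss valuation).
-/

set_option autoImplicit false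

namespace Fermat.Agent.BR

open UpperHalfPlane CongruenceSubgroup AlgebraicCurve
open scoped MatrixGroups Manifold
open Fermat.Agent.S24 (Qbar FF funAlg iota jBar)
open Fermat.Agent.ES.Mid (GQ gal IsDiv IsPE Kum CongOne tau redChar)
open Fermat.Agent.S16.HH (jG)

/-- The real matrix `[[r x, 1], [N z, r]]`. -/
noncomputable def alMat (N r : ℕ) (x z : ℤ) : GL (Fin 2) ℝ :=
  if h : (!![(r : ℝ) * x, 1; (N : ℝ) * z, r] : Matrix (Fin 2) (Fin 2) ℝ).det ≠ 0 then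
    Matrix.GeneralLinearGroup.mkOfDetNeZero _ h else 1

/-- An Atkin-Lehner matrix at `r` together with the automorphism of `Γ₀(N)` it induces. -/
structure ALConj (N r : ℕ) where
  x : ℤ
  z : ℤ
  bez : (r : ℤ) * x - ((N / r : ℕ) : ℤ) * z = 1
  /-- `γ ↦ W γ W⁻¹` -/
  c : Gamma0 N →* Gamma0 N
  hc : ∀ γ : Gamma0 N, alMat N r x z * jG N γ = jG N (c γ) * alMat N r x z
  tr : ∀ γ : Gamma0 N, ((c γ : SL(2, ℤ)) : Matrix (Fin 2) (Fin 2) ℤ).trace
    = ((γ : SL(2, ℤ)) : Matrix (Fin 2) (Fin 2) ℤ).trace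

/-- The matrix of an `ALConj`. -/
noncomputable def ALConj.mat {N r : ℕ} (C : ALConj N r) : GL (Fin 2) ℝ := alMat N r C.x C.z

/-- `χ ↦ χ ∘ c`. -/
def wChar {N : ℕ} (c : Gamma0 N →* Gamma0 N) (A : Type*) [AddCommGroup A] :
    (Additive (Gamma0 N) →+ A) →+ (Additive (Gamma0 N) →+ A) where
  toFun χ := χ.comp (MonoidHom.toAdditive c)
  map_zero' := rfl
  map_add' _ _ := rfl

@[simp] theorem wChar_apply {N : ℕ} (c : Gamma0 N →* Gamma0 N) {A : Type*} [AddCommGroup A]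
    (χ : Additive (Gamma0 N) →+ A) (γ : Gamma0 N) :
    wChar c A χ (Additive.ofMul γ) = χ (Additive.ofMul (c γ)) := rfl

/-- `w` is the Atkin-Lehner automorphism at `r` of `F_N` : `j_d ↔ j_{r d}` for `r d ∣ N`. -/
def IsAL (N r : ℕ) (w : FF N ≃ₐ[Qbar] FF N) : Prop :=
  ∀ (d : ℕ) [NeZero d] [NeZero (r * d)] (hd : d ∣ N) (hrd : r * d ∣ N),
    w (jBar N d hd) = jBar N (r * d) hrd ∧ w (jBar N (r * d) hrd) = jBar N d hd

/-- `W_∞(m)` on the level of characters. -/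
def Woo (N : ℕ) [NeZero N] (A : ValuationSubring Qbar) (m : ℕ) [NeZero m]
    (χ : Additive (Gamma0 N) →+ ZMod m) : Prop :=
  IsPE χ ∧ ∃ u : FF N, Kum N m u χ ∧ CongOne N A u

/-- All the statements of the middle layer of ES, bundled. -/
structure MidAll : Prop where
  mul : ES.Mid.Stmt_KumMul
  inv : ES.Mid.Stmt_KumInv
  pow : ES.Mid.Stmt_KumPow
  unique : ES.Mid.Stmt_KumUnique
  red : ES.Mid.Stmt_KumRed
  ofDiv : ES.Mid.Stmt_KumOfDiv
  divOf : ES.Mid.Stmt_DivOfKum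
  ker : ES.Mid.Stmt_KumKer
  surj : ES.Mid.Stmt_KumSurj
  tauPE : ES.Mid.Stmt_TauPE
  hecke : ES.Mid.Stmt_Hecke
  congInertia : ES.Mid.Stmt_CongInertia
  claimK : ES.Mid.Stmt_ClaimK
  fixedOpen : ES.Mid.Stmt_FixedOpen
  homFinite : ES.Mid.Stmt_HomFinite

end Fermat.Agent.BR
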