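import Fermat.Agent.BR.Top.Defs
import Fermat.Agent.ES.RepS30
import Fermat.Agent.ES.S31.Main
import Fermat.Prelude.Def_CuspForm_Newforms

/-!
# BR / Top : interface (statements as Props) of the top layer of S35 (architect: helper16)

Every package proves `theorem xxx : Stmt_xxx` (possibly from other `Stmt_`s as hypotheses) in its
own NEW file importing this one.  See report RULING BR-1 / BR-2 (stmt = 'BR') for the mathematics.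
-/

set_option autoImplicit false

namespace Fermat.Agent.BR

open UpperHalfPlane CongruenceSubgroup AlgebraicCurve ModularCurve.Period CuspForm
open scoped MatrixGroups Manifold ModularForm TensorProduct
open Fermat.Agent.S24 (Qbar FF funAlg iota jBar)
open Fermat.Agent.S24.QX (qExpHom)
open Fermat.Agent.ES.Mid (GQ gal IsDiv IsPE Kum CongOne tau redChar)
open Fermat.Agent.ES.Mid.GLUE (act)
open Fermat.Agent.ES.Coh (FinLevelData Lam rho tauLam H tauH)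
open Fermat.Agent.S16.HH (jG)
attribute [local instance] Fermat.Agent.S24.algQbarComplex

/-! ## (K) Atkin-Lehner and `U_r` : dictionary with Kummer classes -/

/-- (K1) existence of the Atkin-Lehner data. -/
def Stmt_ALConj : Prop :=
  ∀ (N r : ℕ) [NeZero N], r.Prime → r ∣ N → ¬ r ^ 2 ∣ N → Nonempty (ALConj N r)

/-- (K2a) existence of the Atkin-Lehner automorphism of `F_N`. -/
def Stmt_ALAut : Prop :=
  ∀ (N r : ℕ) [NeZero N], r.Prime → r ∣ N → ¬ r ^ 2 ∣ N → ∃ w : FF N ≃ₐ[Qbar] FF N, IsAL N r w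

/-- (K2b) it commutes with the Galois action. -/
def Stmt_ALGal : Prop :=
  ∀ (N r : ℕ) [NeZero N], r.Prime → r ∣ N → ¬ r ^ 2 ∣ N → ∀ w : FF N ≃ₐ[Qbar] FF N, IsAL N r w →
    ∀ (σ : GQ) (u : FF N), w (gal N σ u) = gal N σ (w u)

/-- (K2c) on functions it is the composition with the matrix `W`. -/
def Stmt_ALFun : Prop :=
  ∀ (N r : ℕ) [NeZero N], r.Prime → r ∣ N → ¬ r ^ 2 ∣ N → ∀ (C : ALConj N r)
    (w : FF N ≃ₐ[Qbar] FF N), IsAL N r w → ∀ θ : funAlg N, ∃ θ' : funAlg N,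
      (∀ z : ℍ, (θ' : ℍ → ℂ) z = (θ : ℍ → ℂ) (C.mat • z)) ∧ w (qExpHom N θ) = qExpHom N θ'

/-- (K3) the dictionary for `w`. -/
def Stmt_KumAL : Prop :=
  ∀ (N r : ℕ) [NeZero N], r.Prime → r ∣ N → ¬ r ^ 2 ∣ N → ∀ (C : ALConj N r)
    (w : FF N ≃ₐ[Qbar] FF N), IsAL N r w → ∀ (m : ℕ) [NeZero m] (u : FF N)
      (χ : Additive (Gamma0 N) →+ ZMod m), Kum N m u χ → Kum N m (w u) (wChar C.c (ZMod m) χ)

/-- (K4) the multiplicative `U_r` : `N_r u = ∏_{b mod r} u((z + b) / r)`, with (F2). -/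
def Stmt_HeckeU : Prop :=
  ∀ (N : ℕ) [NeZero N] (r : Nat.Primes), (r : ℕ) ∣ N →
    ∃ Nr : FF N → FF N,
      (∀ (m : ℕ) [NeZero m] (u : FF N) (χ : Additive (Gamma0 N) →+ ZMod m),
        Kum N m u χ → Kum N m (Nr u) (tau N r (ZMod m) χ)) ∧
      (∀ A : ValuationSubring Qbar, A.LiesOverPrime r → ∀ σ : GQ, A.IsFrobeniusAt σ r →
        ∀ u : FF N, u ≠ 0 → CongOne N A (Nr u * (gal N σ u)⁻¹))

/-- (K5a) `CongOne` is a subgroup. -/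
def Stmt_CongGroup : Prop :=
  ∀ (N : ℕ) (A : ValuationSubring Qbar), CongOne N A 1 ∧
    (∀ u v : FF N, CongOne N A u → CongOne N A v → CongOne N A (u * v)) ∧
    (∀ u : FF N, CongOne N A u → CongOne N A u⁻¹)

/-- (K5b) = (F3) `CongOne` is stable under the decomposition group. -/
def Stmt_CongDecomp : Prop :=
  ∀ (N : ℕ) (A : ValuationSubring Qbar) (σ : GQ), σ ∈ A.decompositionSubgroup ℚ →
    ∀ u : FF N, CongOne N A u → CongOne N A (gal N σ u)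

/-- (K5c) = (F1) without the hypothesis `q ∤ N`. -/
def Stmt_CongInertia' : Prop :=
  ∀ (N : ℕ) [NeZero N] (A : ValuationSubring Qbar),
    ∀ σ ∈ A.inertiaSubgroupIn ℚ, ∀ u : FF N, u ≠ 0 → CongOne N A (gal N σ u * u⁻¹)

/-- (K6) `w` commutes with `T_ℓ`, `ℓ ∤ N`, on `Hom(Γ₀(N), A)`. -/
def Stmt_WTau : Prop :=
  ∀ (N r : ℕ) [NeZero N], r.Prime → r ∣ N → ¬ r ^ 2 ∣ N → ∀ (C : ALConj N r)
    (ℓ : Nat.Primes), ¬ (ℓ : ℕ) ∣ N → ∀ (A : Type) [AddCommGroup A]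
      (χ : Additive (Gamma0 N) →+ A), tau N ℓ A (wChar C.c A χ) = wChar C.c A (tau N ℓ A χ)

/-! ## (G) the geometric theorem in MID language (teams BR/Inv, BR/Inst, G-mid) -/

/-- **Theorem G.**  `[v] ∈ W = W_∞ ∩ w W_∞`. -/
def Stmt_G : Prop :=
  ∀ (N r : ℕ) [NeZero N], r.Prime → r ∣ N → ¬ r ^ 2 ∣ N →
    ∀ w : FF N ≃ₐ[Qbar] FF N, IsAL N r w →
    ∀ A : ValuationSubring Qbar, A.LiesOverPrime r → ∀ m : ℕ, ¬ r ∣ m →
    ∀ v g : FF N, IsDiv N m v → CongOne N A v → g ≠ 0 → CongOne N A (w v * g ^ m) →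
      (∀ σ ∈ A.inertiaSubgroupIn ℚ, ∃ h : FF N, h ^ m = gal N σ v * v⁻¹) ∧
      (∀ φ : GQ, A.IsFrobeniusAt φ r →
        ∃ h : FF N, h ^ m = gal N φ (gal N φ v) * (v ^ (r ^ 2))⁻¹)

/-! ## (F) finite level clauses -/

/-- (K7) the finite level clauses used by S35. -/
def Stmt_FinBR : Prop :=
  ∀ (N : ℕ) [NeZero N] (r : Nat.Primes), (r : ℕ) ∣ N → ¬ (r : ℕ) ^ 2 ∣ N → ∀ (C : ALConj N r)
    (A : ValuationSubring Qbar), A.LiesOverPrime r → ∀ (m : ℕ) [NeZero m], ¬ (r : ℕ) ∣ m →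
    Woo N A m 0 ∧
    (∀ χ χ', Woo N A m χ → Woo N A m χ' → Woo N A m (χ + χ')) ∧
    (∀ φ : GQ, A.IsFrobeniusAt φ r →
      (∀ χ, Woo N A m χ → Woo N A m (act N m φ χ)) ∧
      (∀ χ, IsPE χ → Woo N A m (tau N r (ZMod m) χ - act N m φ χ)) ∧
      (∀ χ, Woo N A m χ → Woo N A m (wChar C.c (ZMod m) χ) →
        act N m φ (act N m φ χ) = ((r : ℕ) ^ 2) • χ))

/-! ## (C) the `p`-adic lattice -/

/-- (C1) the finite level data whose action is `GLUE.act`. -/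
def Stmt_Glued : Prop :=
  ∀ (N : ℕ) [NeZero N], ∃ D : FinLevelData N,
    ∀ (m : ℕ) [NeZero m] (σ : GQ) (χ : Additive (Gamma0 N) →+ ZMod m),
      D.act m σ χ = act N m σ χ

/-- `w` on `Λ = Hom_par(Γ₀(N), ℤ_p)`. -/
noncomputable def wLam {N r : ℕ} [NeZero N] (p : ℕ) [Fact p.Prime] (C : ALConj N r) :
    Module.End ℤ_[p] (Lam N p) where
  toFun χ := ⟨wChar C.c ℤ_[p] χ.1, fun γ hγ => χ.2 (C.c γ) (by rw [C.tr γ]; exact hγ)⟩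
  map_add' _ _ := rfl
  map_smul' _ _ := rfl

/-- (C2) `W_∞ ⊆ Λ` with (F2), (F3), (G2'). -/
def Stmt_LamBR : Prop :=
  ∀ (N : ℕ) [NeZero N] (D : FinLevelData N),
    (∀ (m : ℕ) [NeZero m] (σ : GQ) (χ : Additive (Gamma0 N) →+ ZMod m),
      D.act m σ χ = act N m σ χ) →
    ∀ (p : ℕ) [Fact p.Prime] (r : Nat.Primes), (r : ℕ) ∣ N → ¬ (r : ℕ) ^ 2 ∣ N → (r : ℕ) ≠ p →
    ∀ (C : ALConj N r) (A : ValuationSubring Qbar), A.LiesOverPrime r →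
    ∀ s : GQ, A.IsFrobeniusAt s r →
      ∃ Winf : Submodule ℤ_[p] (Lam N p),
        (∀ x, tauLam p r x - rho D p s x ∈ Winf) ∧
        (∀ x ∈ Winf, rho D p s x ∈ Winf) ∧
        (∀ x ∈ Winf, wLam p C x ∈ Winf →
          rho D p s (rho D p s x) = (((r : ℕ) : ℤ_[p]) ^ 2) • x)

/-! ## (M) modular forms : `U_r ² = 1` on the `r`-new part -/

/-- (M1) `f ∣ W` is a cusp form of level `N`. -/
def Stmt_WForm : Prop :=
  ∀ (N r : ℕ) [NeZero N], r.Prime → r ∣ N → ¬ r ^ 2 ∣ N → ∀ (C : ALConj N r)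
    (f : CuspForm (Gamma0 N) 2), ∃ f' : CuspForm (Gamma0 N) 2,
      (f' : ℍ → ℂ) = (f : ℍ → ℂ) ∣[(2 : ℤ)] C.mat

/-- (M2) periods of `f ∣ W`. -/
def Stmt_PerW : Prop :=
  ∀ (N r : ℕ) [NeZero N], r.Prime → r ∣ N → ¬ r ^ 2 ∣ N → ∀ (C : ALConj N r)
    (f f' : CuspForm (Gamma0 N) 2), (f' : ℍ → ℂ) = (f : ℍ → ℂ) ∣[(2 : ℤ)] C.mat →
      ModularCurve.periodMap N f' = wChar C.c ℂ (ModularCurve.periodMap N f)

/-- (M3) `W` is an involution in weight `2`. -/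
def Stmt_WW : Prop :=
  ∀ (N r : ℕ) [NeZero N], r.Prime → r ∣ N → ¬ r ^ 2 ∣ N → ∀ (C : ALConj N r)
    (f : CuspForm (Gamma0 N) 2),
      ((f : ℍ → ℂ) ∣[(2 : ℤ)] C.mat) ∣[(2 : ℤ)] C.mat = (f : ℍ → ℂ)

/-- (M4) the trace to level `N / r` is `f + U_r (f ∣ W)`. -/
def Stmt_Trace : Prop :=
  ∀ (N r : ℕ) [NeZero N], r.Prime → r ∣ N → ¬ r ^ 2 ∣ N → ∀ (C : ALConj N r)
    (f : CuspForm (Gamma0 N) 2), ∃ h : CuspForm (Gamma0 (N / r)) 2,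
      (h : ℍ → ℂ) = (f : ℍ → ℂ) + ModularForm.heckeU 2 r ((f : ℍ → ℂ) ∣[(2 : ℤ)] C.mat)

/-- (M5) a nonzero eigenvector at level `M'` gives a normalised eigenform. -/
def Stmt_Occurs : Prop :=
  ∀ (N M' : ℕ) [NeZero N] [NeZero M'], M' ∣ N → ∀ (g : CuspForm (Gamma0 N) 2)
    (h : CuspForm (Gamma0 M') 2), h ≠ 0 →
    (∀ (ℓ : ℕ) (hℓ : ℓ.Prime) (_ : ¬ ℓ ∣ N) (hℓM : ¬ ℓ ∣ M'),
      heckeTLin 2 hℓ hℓM h = ModularFormClass.qCoeff g ℓ • h) →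
    GoodEigensystemOccursAt g M'

/-- (M6) `T_ℓ` commutes with `W` on cusp forms. -/
def Stmt_TW : Prop :=
  ∀ (N r : ℕ) [NeZero N], r.Prime → r ∣ N → ¬ r ^ 2 ∣ N → ∀ (C : ALConj N r)
    (ℓ : ℕ) (hℓ : ℓ.Prime) (hℓN : ¬ ℓ ∣ N) (f f' : CuspForm (Gamma0 N) 2),
      (f' : ℍ → ℂ) = (f : ℍ → ℂ) ∣[(2 : ℤ)] C.mat →
      ((heckeTLin 2 hℓ hℓN f' : CuspForm (Gamma0 N) 2) : ℍ → ℂ)
        = ((heckeTLin 2 hℓ hℓN f : CuspForm (Gamma0 N) 2) : ℍ → ℂ) ∣[(2 : ℤ)] C.mat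

/-- (M7) `U_r ² = 1` on the eigenspace of a newform. -/
def Stmt_NewForms : Prop :=
  ∀ (N r : ℕ) [NeZero N] (_ : r.Prime) (hrN : r ∣ N), ¬ r ^ 2 ∣ N →
    ∀ g : CuspForm (Gamma0 N) 2, g.IsNewform → ∀ f : CuspForm (Gamma0 N) 2,
    (∀ (ℓ : ℕ) (hℓ : ℓ.Prime) (hℓN : ¬ ℓ ∣ N),
      heckeTLin 2 hℓ hℓN f = ModularFormClass.qCoeff g ℓ • f) →
    heckeULin 2 hrN (heckeULin 2 hrN f) = f

/-- (M8a) the same on parabolic homomorphisms. -/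
def Stmt_NewU : Prop :=
  ∀ (N : ℕ) [NeZero N] (r : Nat.Primes), (r : ℕ) ∣ N → ¬ (r : ℕ) ^ 2 ∣ N →
    ∀ g : CuspForm (Gamma0 N) 2, g.IsNewform → ∀ x : Additive (Gamma0 N) →+ ℂ,
    IsParabolicHom (Gamma0 N) x →
    (∀ ℓ : Nat.Primes, ¬ (ℓ : ℕ) ∣ N → tau N ℓ ℂ x = ModularFormClass.qCoeff g ℓ • x) →
    tau N r ℂ (tau N r ℂ x) = x

/-- (M8b) the eigensystem of `g` occurs in the parabolic homomorphisms. -/
def Stmt_EigenPer : Prop :=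
  ∀ (N : ℕ) [NeZero N] (g : CuspForm (Gamma0 N) 2), g.IsNormalizedEigenform →
    ∃ x : Additive (Gamma0 N) →+ ℂ, x ≠ 0 ∧ IsParabolicHom (Gamma0 N) x ∧
      ∀ ℓ : Nat.Primes, ¬ (ℓ : ℕ) ∣ N → tau N ℓ ℂ x = ModularFormClass.qCoeff g ℓ • x

/-! ## (A) algebra -/

/-- (A2) field independence. -/
def Stmt_FieldIndep : Prop :=
  ∀ (Hh : Type) [AddCommGroup Hh] [Module.Free ℤ Hh] [Module.Finite ℤ Hh]
    (ι : Type) (T : ι → Module.End ℤ Hh) (Y : Module.End ℤ Hh)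
    (K L₁ L₂ : Type) [Field K] [Field L₁] [Field L₂] (e₁ : K →+* L₁) (e₂ : K →+* L₂) (a : ι → K)
    (V₁ : Type) [AddCommGroup V₁] [Module L₁ V₁] (j₁ : Hh →ₗ[ℤ] V₁) (_ : IsBaseChange L₁ j₁)
    (V₂ : Type) [AddCommGroup V₂] [Module L₂ V₂] (j₂ : Hh →ₗ[ℤ] V₂) (_ : IsBaseChange L₂ j₂)
    (T₁ : ι → Module.End L₁ V₁) (Y₁ : Module.End L₁ V₁)
    (T₂ : ι → Module.End L₂ V₂) (Y₂ : Module.End L₂ V₂),
    (∀ i h, T₁ i (j₁ h) = j₁ (T i h)) → (∀ h, Y₁ (j₁ h) = j₁ (Y h)) →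
    (∀ i h, T₂ i (j₂ h) = j₂ (T i h)) → (∀ h, Y₂ (j₂ h) = j₂ (Y h)) →
    (∀ x : V₁, (∀ i, T₁ i x = e₁ (a i) • x) → Y₁ x = 0) →
    ∀ x : V₂, (∀ i, T₂ i x = e₂ (a i) • x) → Y₂ x = 0

/-- (A3) closure lemma. -/
def Stmt_Closure : Prop :=
  ∀ (p : ℕ) [Fact p.Prime] (Λ : Type) [AddCommGroup Λ] [Module ℤ_[p] Λ] [Module.Free ℤ_[p] Λ]
    [Module.Finite ℤ_[p] Λ] (𝒯 : Set (Module.End ℤ_[p] Λ)) (B : Module.End ℤ_[p] Λ),
    (∀ n : ℕ, ∃ x ∈ 𝒯, ∀ v, ∃ w, B v - x v = (p : ℤ_[p]) ^ n • w) →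
    B ∈ Submodule.span ℤ_[p] 𝒯

/-- (A4) the case analysis. -/
def Stmt_CaseAnalysis : Prop :=
  ∀ (R Ω : Type) [CommRing R] [Field Ω] [Algebra R Ω] [Module.Flat R Ω]
    (Λ : Type) [AddCommGroup Λ] [Module R Λ]
    (s U w : Module.End R Λ) (Winf : Submodule R Λ) (r : R), algebraMap R Ω r ≠ 0 →
    (∀ x, U x - s x ∈ Winf) → (∀ x ∈ Winf, s x ∈ Winf) →
    (∀ x ∈ Winf, w x ∈ Winf → s (s x) = r ^ 2 • x) →
    ∀ M : Submodule Ω (Ω ⊗[R] Λ), M ≠ ⊥ →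
    (∀ x ∈ M, w.baseChange Ω x ∈ M) →
    (∀ x ∈ M, U.baseChange Ω (U.baseChange Ω x) = x) →
    ∀ t : Ω, (∀ x ∈ M, s.baseChange Ω (s.baseChange Ω x) - t • s.baseChange Ω x
        + algebraMap R Ω r • x = 0) →
    t ^ 2 = (1 + algebraMap R Ω r) ^ 2

/-- (A5) extension of `iota` to all algebraic numbers. -/
def Stmt_IotaExt : Prop :=
  ∀ (R : Subring ℂ), (∀ x ∈ R, IsIntegral ℤ x) →
    ∀ (O : Type) [CommRing O] [IsDomain O] [CharZero O] (io : R →+* O)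
      (Ω : Type) [Field Ω] [IsAlgClosed Ω] [Algebra O Ω], Function.Injective (algebraMap O Ω) →
      ∃ e : (algebraicClosure ℚ ℂ) →+* Ω,
        ∀ (x : R) (hx : (x : ℂ) ∈ algebraicClosure ℚ ℂ), e ⟨x, hx⟩ = algebraMap O Ω (io x)

end Fermat.Agent.BR
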